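import Fermat.Agent.S44.PL.Ctx
import Fermat.Agent.SS.GM2.TowerAux
import Fermat.Agent.SS.GM2.GR

/-!
# S44 / Inst / Ctx : the modular instance of `PL.Ctx`          (owner: helper13)

* `ctx_abstract` : `Setup` + `GR` + the two coordinates `X`, `Y₁`  ⟹  `PL.Ctx`   (extracted from `S33.Glue.core2w_abstract`);
* `exists_ctx`   : for a DVR `(A, K, k)`, `ζ ∈ A` with `ζ - 1` a uniformiser, and the Atkin-Lehner involution `w` of `F_K(M p)`:
  an abstract tower `E ⊆ F`, `Φ : F → K((q))` with image `F_K(M p)`, with `PL.Ctx`.  All the instances are delivered existentially, so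
  that every abstract theorem on `PL.Ctx` can be applied after one `obtain`.
-/

set_option autoImplicit false
set_option linter.unusedSectionVars false
set_option linter.style.haveILetI false

open Polynomial ModularCurve
open scoped IntermediateField

namespace Fermat.Agent.S44.Inst

open Fermat.Agent.Crux.G Fermat.Agent.SS.G2 Fermat.Agent.SS.GM2
open Fermat.Agent.S28 (V J evAt)
open Fermat.Agent.Crux.GM (castS)
open Fermat.Agent.S24 (XN Kb)

section abstract

variable {M ℓ : ℕ} [NeZero M] [NeZero ℓ]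
variable {A K k : Type} [CommRing A] [IsDomain A] [IsDiscreteValuationRing A] [Field K]
  [CharZero K] [Algebra A K] [IsFractionRing A K] [Algebra K Kb] [Field k] [Finite k]
  {r : A →+* k} {π : A}
variable {F : Type} [Field F] [Algebra A F] {Φ : F →+* LaurentSeries K} {w : F →+* F}

theorem ctx_abstract
    {E E₁ : Type} [Field E] [Field E₁] [CharZero E]
    [Algebra A E] [Algebra E F] [IsScalarTower A E F] [FiniteDimensional E F]
    [Algebra A E₁] [Algebra E₁ F] [IsScalarTower A E₁ F]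
    (S : Setup M ℓ r π Φ w)
    (X : E) (hX : Φ (algebraMap E F X) = castS K (Xh M ℓ)) (hXt : Transcendental A X)
    (hgen : ∀ c : E, ∃ p q : A[X], q ≠ 0 ∧ c * aeval X q = aeval X p)
    (Y₁ : E₁) (hY₁ : Φ (algebraMap E₁ F Y₁) = castS K (Jh (M * ℓ)))
    (hY₁t : Transcendental A Y₁)
    (hgen₁ : ∀ c : E₁, ∃ p q : A[X], q ≠ 0 ∧ c * aeval Y₁ q = aeval Y₁ p)
    (hn₁ : Module.finrank E₁ F = Nat.card (XN (M * ℓ)))
    (G0 : GR M r (castS K (Jh M)) (castS k (Jh M)))
    (Ginf : GR M r (castS K (Jh M))⁻¹ (castS k (Jh M))⁻¹)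
    (ζ : A) (hζ : IsPrimitiveRoot ζ ℓ) (hπ : π = ζ - 1) (hℓ2 : ℓ ≠ 2) :
    PL.Ctx M ℓ r π Φ w X ζ := by
  obtain ⟨Jf, Yf, hJ, hY⟩ := S.exists_J
  have hYe : algebraMap E₁ F Y₁ = Yf := Φ.injective (by rw [hY₁, hY])
  have hXe : algebraMap E F X = Jf * Yf := Φ.injective (by rw [hX, S.Phi_X hJ hY])
  have QY : QL M r π Φ w Yf := hYe ▸ S.ql_Y Y₁ hY₁ hY₁t hgen₁ hn₁
  have QX : QL M r π Φ w (algebraMap E F X) := hXe ▸ S.ql_X hJ hY QY
  have hwX : w (algebraMap E F X) = algebraMap E F X := by rw [hXe]; exact S.w_X hJ hY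
  exact
    { S := S
      hX := hX
      hXt := hXt
      hgen := hgen
      wX := hwX
      hζ := hζ
      hπ := hπ
      hp2 := hℓ2
      ql := QX
      lift0 := fun a ha hint => by
        obtain ⟨c, h1, h2⟩ := S.lift_X hJ hY G0 a ha hint
        exact ⟨c, (intX_algebraMap_iff X c).mp (hXe ▸ h1), h2⟩
      liftinf := fun a ha hint => by
        obtain ⟨c, h1, h2⟩ := S.lift_Xinv hJ hY Ginf a ha hint
        refine ⟨c, (intX_algebraMap_iff X⁻¹ c).mp ?_, h2⟩
        rw [map_inv₀, hXe]; exact h1 }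

end abstract

set_option maxHeartbeats 4000000 in
set_option synthInstance.maxHeartbeats 400000 in
/-- **The modular instance of `PL.Ctx`.** -/
theorem exists_ctx (M ℓ : ℕ) [NeZero M] [NeZero ℓ] (hℓ : ℓ.Prime) (hℓM : ¬ ℓ ∣ M) (hℓ5 : 5 ≤ ℓ)
    {A K k : Type} [CommRing A] [IsDomain A] [IsDiscreteValuationRing A] [Field K]
    [Algebra A K] [IsFractionRing A K] [Algebra K Kb] [Field k] [Finite k]
    (r : A →+* k) (hr : Function.Surjective r) (hrℓ : r ℓ = 0)
    (ζ : A) (hζ : IsPrimitiveRoot ζ ℓ) (hirr : Irreducible (ζ - 1))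
    (w : modularFunctionFieldFullC K (M * ℓ) →ₐ[K] modularFunctionFieldFullC K (M * ℓ))
    (hw : IsALK K M ℓ w) :
    ∃ (_ : CharZero K) (F E : Type) (_ : Field F) (_ : Algebra A F) (_ : Field E) (_ : CharZero E)
      (_ : Algebra A E) (_ : Algebra E F) (_ : IsScalarTower A E F) (_ : FiniteDimensional E F)
      (Φ : F →+* LaurentSeries K) (w' : F →+* F) (X : E),
      PL.Ctx M ℓ r (ζ - 1) Φ w' X ζ ∧
      ∀ f : modularFunctionFieldFullC K (M * ℓ), ∃ f' : F, Φ f' = (f : LaurentSeries K) ∧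
        Φ (w' f') = ((w f : modularFunctionFieldFullC K (M * ℓ)) : LaurentSeries K) := by
  classical
  have hadm : Fermat.Agent.Crux.Admissible ℓ M := ⟨fun h => by omega, fun h => by omega⟩
  haveI hK0 : CharZero K :=
    ((algebraMap K Kb).charZero_iff (algebraMap K Kb).injective).2 inferInstance
  have hle0 := adjoin_X_le K M ℓ
  have hle1 := adjoin_Y_le K M ℓ
  letI iAF : Algebra A (modularFunctionFieldFullC K (M * ℓ)) :=
    ((algebraMap K (modularFunctionFieldFullC K (M * ℓ))).comp (algebraMap A K)).toAlgebra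
  letI iAE : Algebra A K⟮castS K (Xh M ℓ)⟯ :=
    ((algebraMap K K⟮castS K (Xh M ℓ)⟯).comp (algebraMap A K)).toAlgebra
  letI iEF : Algebra K⟮castS K (Xh M ℓ)⟯ (modularFunctionFieldFullC K (M * ℓ)) :=
    (IntermediateField.inclusion hle0).toRingHom.toAlgebra
  haveI t1 : IsScalarTower A K⟮castS K (Xh M ℓ)⟯ (modularFunctionFieldFullC K (M * ℓ)) :=
    IsScalarTower.of_algebraMap_eq fun _ => rfl
  letI iAE1 : Algebra A K⟮castS K (Jh (M * ℓ))⟯ :=
    ((algebraMap K K⟮castS K (Jh (M * ℓ))⟯).comp (algebraMap A K)).toAlgebra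
  letI iE1F : Algebra K⟮castS K (Jh (M * ℓ))⟯ (modularFunctionFieldFullC K (M * ℓ)) :=
    (IntermediateField.inclusion hle1).toRingHom.toAlgebra
  haveI t2 : IsScalarTower A K⟮castS K (Jh (M * ℓ))⟯ (modularFunctionFieldFullC K (M * ℓ)) :=
    IsScalarTower.of_algebraMap_eq fun _ => rfl
  haveI c0 : CharZero K⟮castS K (Xh M ℓ)⟯ :=
    charZero_of_injective_algebraMap (algebraMap K K⟮castS K (Xh M ℓ)⟯).injective
  haveI fd : FiniteDimensional K⟮castS K (Xh M ℓ)⟯ (modularFunctionFieldFullC K (M * ℓ)) :=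
    FiniteDimensional.of_finrank_pos (by
      rw [finrank_inclusion _ _ hle0]; exact relfinrank_X_pos K M ℓ)
  have S : Setup M ℓ r (ζ - 1)
      (algebraMap (modularFunctionFieldFullC K (M * ℓ)) (LaurentSeries K))
      (w : modularFunctionFieldFullC K (M * ℓ) →+* modularFunctionFieldFullC K (M * ℓ)) :=
    { hℓ := hℓ
      hℓM := hℓM
      hr := hr
      hrℓ := hrℓ
      hπ := hirr
      hΦA := fun a => by
        change algebraMap K (LaurentSeries K) (algebraMap A K a) = _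
        rw [algebraMap_laurentSeries_eq_single, HahnSeries.C_apply]
      hΦF := fun z => ⟨fun hz => ⟨⟨z, hz⟩, rfl⟩, fun ⟨f, hf⟩ => hf ▸ f.2⟩
      hwA := fun a => w.commutes (algebraMap A K a)
      hwα := fun f hf => hw.alpha f hf
      hww := fun f => hw.invol f }
  obtain ⟨G0, Ginf⟩ := grJ (K := K) r M ℓ hℓ hℓM hadm hr hrℓ
  have C := ctx_abstract (E := K⟮castS K (Xh M ℓ)⟯) (E₁ := K⟮castS K (Jh (M * ℓ))⟯) S
    (IntermediateField.AdjoinSimple.gen K (castS K (Xh M ℓ))) rfl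
    (transcendental_iff.2 fun P hP => Fermat.Agent.Crux.GM.Main.eq_zero_of_eval₂_gen (A := A) _
      (transcendental_castS_Xh K M ℓ) _ (fun _ => rfl) P hP)
    (fun c => Fermat.Agent.Crux.GM.Main.exists_frac_gen (A := A) _ _ (fun _ => rfl) c)
    (IntermediateField.AdjoinSimple.gen K (castS K (Jh (M * ℓ)))) rfl
    (transcendental_iff.2 fun P hP => Fermat.Agent.Crux.GM.Main.eq_zero_of_eval₂_gen (A := A) _
      (transcendental_castS_Jh K M ℓ) _ (fun _ => rfl) P hP)
    (fun c => Fermat.Agent.Crux.GM.Main.exists_frac_gen (A := A) _ _ (fun _ => rfl) c)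
    (by rw [finrank_inclusion _ _ hle1]; exact relfinrank_Y K M ℓ)
    G0 Ginf ζ hζ rfl (by omega)
  exact ⟨hK0, modularFunctionFieldFullC K (M * ℓ), K⟮castS K (Xh M ℓ)⟯, inferInstance, iAF,
    inferInstance, c0, iAE, iEF, t1, fd, _, _, _, C, fun f => ⟨f, rfl, rfl⟩⟩

end Fermat.Agent.S44.Inst
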