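import Fermat.Agent.S44.Cover.InvDesc
import Fermat.Agent.SS.GM2.Desc.Norm

/-!
# S44 / Inst / Rep : the `K₀`-rational representative `W₀` of `y₀`, and hypothesis (h1) of `PL.cover_abstract`   (owner: helper13)

TASKS (project S44): `S44/Inst-Rep` (`exists_rep`), `S44/Inst-W0` (`exists_W0`, `not_pow`), `S44/Inst-H1` (`h1`).
-/

set_option autoImplicit false
set_option linter.unusedSectionVars false

open AlgebraicCurve ModularCurve
open scoped IntermediateField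

namespace Fermat.Agent.S44.Inst

open Fermat.Agent.ES Fermat.Agent.SS Fermat.Agent.SS.GM2
open Fermat.Agent.S44.Cover (LL gact bc)
open Fermat.Agent.Crux.GM (castS)

/-! ### TASK `S44/Inst-Rep` -/

/-- every class has a representative with leading coefficient `1`.
`Kum.mk_surjective` gives `f₀`; `c := lc f₀ ≠ 0`; `d ^ p = c` (`IsAlgClosed.exists_pow_nat_eq`), `D := Units.mk0 (algebraMap Qb (FF N) d) _`;
`f := f₀ * (D⁻¹) ^ p ∈ Dm` (`Pw_le_Dm`), `Kum.mk f = Kum.mk f₀` (`Kum.mk_eq_mk_iff`, cf. `S44.inK1_of_ppow` in `S44/Top.lean`).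
Series: `Cover.coe_algebraMap_FF`, `HahnSeries.leadingCoeff_mul`, `leadingCoeff_pow`-by-induction (see `PL.Ctx.pow_of_lc`), `HahnSeries.leadingCoeff_of_single`.
Order: `Crux.GM.dvd_order_coe N p f hf0 hdiv`  (used in `SS/GM2/Desc/Step.lean`, `exists_root`). -/
theorem exists_rep {N p : ℕ} [NeZero N] (hp : p.Prime) (y : Kum N p) :
    ∃ f : Dm N p, Kum.mk f = y ∧ (((f : (FF N)ˣ) : FF N) : LL).leadingCoeff = 1 ∧
      (p : ℤ) ∣ (((f : (FF N)ˣ) : FF N) : LL).order := by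
  obtain ⟨f₀, rfl⟩ := Kum.mk_surjective y
  set fS : LL := (((f₀ : (FF N)ˣ) : FF N) : LL) with hfS
  have hfS0 : fS ≠ 0 := fun h0 => (f₀ : (FF N)ˣ).ne_zero (Subtype.ext h0)
  have hc0 : fS.leadingCoeff ≠ 0 := HahnSeries.leadingCoeff_ne_zero.mpr hfS0
  obtain ⟨d, hd⟩ := IsAlgClosed.exists_pow_nat_eq fS.leadingCoeff hp.pos
  have hd0 : d ≠ 0 := by
    rintro rfl
    rw [zero_pow hp.ne_zero] at hd
    exact hc0 hd.symm
  let D : (FF N)ˣ := Units.mk0 (algebraMap Qb (FF N) d) ((map_ne_zero _).2 hd0)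
  have hDmem : (D⁻¹) ^ p ∈ Dm N p := Pw_le_Dm N p ⟨D⁻¹, rfl⟩
  let f : Dm N p := f₀ * ⟨(D⁻¹) ^ p, hDmem⟩
  have hfser : (((f : (FF N)ˣ) : FF N) : LL) = fS * HahnSeries.C ((d ^ p)⁻¹) := by
    have h1 : ((f : (FF N)ˣ) : FF N) = ((f₀ : (FF N)ˣ) : FF N) * algebraMap Qb (FF N) ((d ^ p)⁻¹) := by
      simp [f, D]
    rw [h1]
    show fS * ((algebraMap Qb (FF N) ((d ^ p)⁻¹) : FF N) : LL) = _
    rw [Fermat.Agent.S44.Cover.coe_algebraMap_FF]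
  refine ⟨f, ?_, ?_, ?_⟩
  · rw [Kum.mk_eq_mk_iff]
    refine ⟨D⁻¹, ?_⟩
    simp [f]
  · rw [hfser, HahnSeries.leadingCoeff_mul, HahnSeries.C_apply, HahnSeries.leadingCoeff_of_single,
      ← hd, mul_inv_cancel₀ (pow_ne_zero p hd0)]
  · exact Fermat.Agent.Crux.GM.dvd_order_coe N p _ (f : (FF N)ˣ).ne_zero f.2

/-! ### TASK `S44/Inst-W0` -/

theorem W0_lc_pow {R : Type*} [Field R] (w : LaurentSeries R) (n : ℕ) :
    (w ^ n).leadingCoeff = w.leadingCoeff ^ n := by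
  induction n with
  | zero => simp
  | succ n ih => rw [pow_succ, pow_succ, HahnSeries.leadingCoeff_mul, ih]

/-- **the `K₀`-rational representative.**
`exists_rep` gives `f`.  `hb` of `Cover.exists_fixed_rep`: `galKum_mk`, `Kum.mk_eq_mk_iff` give `h ^ p = galU g f * f⁻¹`, i.e. `gact g f = f * h ^ p` (`coe_galU`, `coe_galF`).
`Cover.exists_fixed_rep` gives `W₀' t₀' κ`, `t₀' ^ p = W₀'`, `bc W₀' = f κ^p`.  `W₀' ≠ 0`, `c := lc t₀' ≠ 0`.  Rescale: `t₀ := C c⁻¹ * t₀'`, `W₀ := C c⁻¹ ^ p * W₀'`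
(in `F_{K₀}(N)`: constants are `algebraMap K₀ _`, `S28.C_eq_algebraMap`), `u := f * (κ / c) ^ p`  (units; `Cover.bc_C`, `Cover.coe_algebraMap_FF`). -/
theorem exists_W0 {N p : ℕ} [NeZero N] (hp : p.Prime) (K₀ : IntermediateField ℚ Qb) (y₀ : Kum N p)
    (hfix : ∀ g : GQ, (∀ x ∈ K₀, g x = x) → galKum N p g y₀ = y₀) :
    ∃ (u : Dm N p) (W₀ : modularFunctionFieldFullC K₀ N) (t₀ : LaurentSeries K₀),
      Kum.mk u = y₀ ∧ bc K₀ (W₀ : LaurentSeries K₀) = (((u : (FF N)ˣ) : FF N) : LL) ∧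
      (W₀ : LaurentSeries K₀).leadingCoeff = 1 ∧ t₀ ^ p = (W₀ : LaurentSeries K₀) ∧
      t₀.leadingCoeff = 1 := by
  obtain ⟨f, hfy, hflc, hford⟩ := exists_rep hp y₀
  have hfu0 : ((f : (FF N)ˣ) : FF N) ≠ 0 := (f : (FF N)ˣ).ne_zero
  have hb : ∀ g : GQ, (∀ x ∈ K₀, g x = x) → ∃ k : FF N,
      gact g (((f : (FF N)ˣ) : FF N) : LL) = (((f : (FF N)ˣ) : FF N) : LL) * (k : LL) ^ p := by
    intro g hg
    have h1 := hfix g hg
    rw [← hfy, galKum_mk, Kum.mk_eq_mk_iff] at h1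
    obtain ⟨h, hh⟩ := h1
    refine ⟨(h : FF N), ?_⟩
    have h2 : (h : FF N) ^ p
        = galF N g ((f : (FF N)ˣ) : FF N) * (((f : (FF N)ˣ) : FF N))⁻¹ := by
      have := congrArg (fun u : (FF N)ˣ => (u : FF N)) hh
      simpa using this
    have h3 : galF N g ((f : (FF N)ˣ) : FF N) = ((f : (FF N)ˣ) : FF N) * (h : FF N) ^ p := by
      rw [h2, mul_comm, inv_mul_cancel_right₀ hfu0]
    exact congrArg (fun x : FF N => (x : LL)) h3
  obtain ⟨W₀', t₀', κ, hW₀'m, ht₀', hκ, hbc⟩ :=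
    Fermat.Agent.S44.Cover.exists_fixed_rep hp K₀ _ hflc hford hb
  have hf0 : (((f : (FF N)ˣ) : FF N) : LL) ≠ 0 := fun h0 => hfu0 (Subtype.ext h0)
  have hκ0 : (κ : LL) ≠ 0 := fun h0 => hκ (Subtype.ext h0)
  have hW₀'0 : W₀' ≠ 0 := by
    rintro rfl
    rw [map_zero] at hbc
    exact mul_ne_zero hf0 (pow_ne_zero p hκ0) hbc.symm
  have ht₀'0 : t₀' ≠ 0 := by
    rintro rfl
    rw [zero_pow hp.ne_zero] at ht₀'
    exact hW₀'0 ht₀'.symm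
  set c : K₀ := t₀'.leadingCoeff with hc
  have hc0 : c ≠ 0 := HahnSeries.leadingCoeff_ne_zero.mpr ht₀'0
  have hcQ : (c : Qb) ≠ 0 := fun h0 => hc0 (Subtype.ext h0)
  let D : (FF N)ˣ := Units.mk0 (κ * algebraMap Qb (FF N) ((c : Qb)⁻¹))
    (mul_ne_zero hκ ((map_ne_zero _).2 (inv_ne_zero hcQ)))
  have hDmem : D ^ p ∈ Dm N p := Pw_le_Dm N p ⟨D, rfl⟩
  let u : Dm N p := f * ⟨D ^ p, hDmem⟩
  have hlcC : ∀ a : K₀, (HahnSeries.C a : LaurentSeries K₀).leadingCoeff = a := by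
    intro a
    rw [HahnSeries.C_apply, HahnSeries.leadingCoeff_of_single]
  refine ⟨u, ⟨HahnSeries.C c⁻¹ ^ p * W₀', ?_⟩, HahnSeries.C c⁻¹ * t₀', ?_, ?_, ?_, ?_, ?_⟩
  · refine mul_mem (pow_mem ?_ p) hW₀'m
    rw [Fermat.Agent.S28.C_eq_algebraMap]
    exact IntermediateField.algebraMap_mem _ _
  · rw [← hfy, Kum.mk_eq_mk_iff]
    exact ⟨D, by simp [u]⟩
  · show bc K₀ (HahnSeries.C c⁻¹ ^ p * W₀') = _
    have h1 : ((u : (FF N)ˣ) : FF N)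
        = ((f : (FF N)ˣ) : FF N) * (κ * algebraMap Qb (FF N) ((c : Qb)⁻¹)) ^ p := by
      simp [u, D]
    rw [h1]
    show _ = (((f : (FF N)ˣ) : FF N) : LL)
      * ((κ : LL) * ((algebraMap Qb (FF N) ((c : Qb)⁻¹) : FF N) : LL)) ^ p
    rw [Fermat.Agent.S44.Cover.coe_algebraMap_FF, map_mul, map_pow,
      Fermat.Agent.S44.Cover.bc_C, hbc]
    have h2 : ((c⁻¹ : K₀) : Qb) = (c : Qb)⁻¹ := rfl
    rw [h2]
    ring
  · show (HahnSeries.C c⁻¹ ^ p * W₀').leadingCoeff = 1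
    rw [← ht₀', ← mul_pow, W0_lc_pow, HahnSeries.leadingCoeff_mul, hlcC, ← hc,
      inv_mul_cancel₀ hc0, one_pow]
  · show (HahnSeries.C c⁻¹ * t₀') ^ p = HahnSeries.C c⁻¹ ^ p * W₀'
    rw [mul_pow, ht₀']
  · rw [HahnSeries.leadingCoeff_mul, hlcC, ← hc, inv_mul_cancel₀ hc0]

/-- a representative of a nonzero class is not a `p`-th power (`Kum.mk_eq_zero_iff`; `h ≠ 0` because `u ≠ 0`, `Units.mk0`). -/
theorem not_pow {N p : ℕ} (hp : p.Prime) (u : Dm N p) (hu : Kum.mk u ≠ 0) (h : FF N) :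
    (h : LL) ^ p ≠ (((u : (FF N)ˣ) : FF N) : LL) := by
  intro hh
  apply hu
  rw [Kum.mk_eq_zero_iff]
  have h1 : h ^ p = ((u : (FF N)ˣ) : FF N) := Subtype.ext hh
  have h0 : h ≠ 0 := by
    rintro rfl
    rw [zero_pow hp.ne_zero] at h1
    exact (u : (FF N)ˣ).ne_zero h1.symm
  exact ⟨Units.mk0 h h0, Units.ext (by simpa using h1)⟩

/-! ### TASK `S44/Inst-H1` -/

/-- **(h1)**, series form.  `Cover.invKq_K0` with `y := XF M p` and `y := (XF M p)⁻¹` (`SS/GM2/Desc/Norm.lean`); the `FiniteDimensional` instances and the two equations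
`bc (castS K₀ (Xh M p)) = XF M p` (`Crux.GM.coeffMap_castS`), `bc (castS ..)⁻¹ = ((XF M p)⁻¹ : FF _)` exactly as in `SS.GM2.exists_root_of_redTo` / `core_step2` (`hfd`, `hfd'`, `hXm`, `hXm'`). -/
theorem h1 {M p : ℕ} [NeZero M] [NeZero p] (hp : p.Prime) (K₀ : IntermediateField ℚ Qb)
    (u : Dm (M * p) p) (W₀ : LaurentSeries K₀)
    (hW₀ : bc K₀ W₀ = (((u : (FF (M * p))ˣ) : FF (M * p)) : LL)) :
    InvKq K₀ (M * p) p (castS K₀ (Xh M p)) W₀ ∧ InvKq K₀ (M * p) p (castS K₀ (Xh M p))⁻¹ W₀ := by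
  have hfd0 : FiniteDimensional Qb⟮S24.jN (M * p)⟯ (FF (M * p)) := S24.finiteDimensional_FN (M * p)
  have hfd : FiniteDimensional Qb⟮XF M p⟯ (FF (M * p)) :=
    S24.FF.finiteDimensional_of_transcendental Qb (S24.jN (M * p)) (transcendental_XF M p)
  have hfd' : FiniteDimensional Qb⟮(XF M p)⁻¹⟯ (FF (M * p)) :=
    S24.FF.finiteDimensional_of_transcendental Qb (S24.jN (M * p)) (transcendental_XF_inv M p)
  have hXm : bc K₀ (castS K₀ (Xh M p)) = ((XF M p : FF (M * p)) : LL) := by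
    show coeffMap (algebraMap K₀ Qb) (castS K₀ (Xh M p)) = _
    rw [Crux.GM.coeffMap_castS]
    rfl
  have hXm' : bc K₀ (castS K₀ (Xh M p))⁻¹ = (((XF M p)⁻¹ : FF (M * p)) : LL) := by
    rw [map_inv₀, hXm]
    rfl
  have hu0 : ((u : (FF (M * p))ˣ) : FF (M * p)) ≠ 0 := (u : (FF (M * p))ˣ).ne_zero
  have hdiv : ∀ P : Place Qb (FF (M * p)), (p : ℤ) ∣ P.ord ((u : (FF (M * p))ˣ) : FF (M * p)) :=
    fun P => u.2 P
  exact ⟨Cover.invKq_K0 (M * p) p hp.pos _ W₀ (XF M p) _ hXm hW₀ hu0 hdiv,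
    Cover.invKq_K0 (M * p) p hp.pos _ W₀ (XF M p)⁻¹ _ hXm' hW₀ hu0 hdiv⟩

end Fermat.Agent.S44.Inst
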