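import Fermat.Agent.S44.Inst.Main
import Fermat.Agent.S44.Const.Field

/-!
# S44 / Inst / Pair : steps (1) + (2) of `Const` in one statement          (owner: helper13)

`of_pair` : `Pair`  ⟹  the field package `K₀` (`Const.exists_package`) + the modular instance of `PL.Ctx` + the cover structure `(C0)` (`Inst.main`).
-/

set_option autoImplicit false
set_option linter.unusedSectionVars false
set_option linter.style.haveILetI false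

open AlgebraicCurve ModularCurve

namespace Fermat.Agent.S44.Inst

open Fermat.Agent.ES Fermat.Agent.SS Fermat.Agent.SS.GM2 Fermat.Agent.S33
open Fermat.Agent.Crux.G
open Fermat.Agent.Crux (A0)
open Fermat.Agent.S44.Cover (LL gact bc)
open Fermat.Agent.S44.PL (r0 lam)

variable {M p : ℕ} [NeZero M] [NeZero p] {A : ValuationSubring Qb}

set_option maxHeartbeats 1000000 in
theorem of_pair (hp : p.Prime) (hp5 : 5 ≤ p) (hpM : ¬ p ∣ M) (hA : A.LiesOverPrime p)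
    {w : FF (M * p) →ₐ[Qb] FF (M * p)} {hw : IsAL M p w} {ζ : Qb} (hζ : IsPrimitiveRoot ζ p)
    {S : Finset ℕ} {a : ℕ → ℤ} {y₀ y : Kum (M * p) p} (hpair : Pair M p hp A hw S a y₀ y) :
    ∃ (K₀ : IntermediateField ℚ Qb) (_ : NumberField K₀)
      (_ : IsDiscreteValuationRing (A0 K₀ A)) (_ : Finite (IsLocalRing.ResidueField (A0 K₀ A)))
      (ζ₀ : A0 K₀ A),
      algebraMap K₀ Qb (ζ₀ : K₀) = ζ ∧ IsPrimitiveRoot ζ₀ p ∧ Irreducible (ζ₀ - 1) ∧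
      (∀ g : GQ, (∀ x ∈ K₀, g x = x) → galKum (M * p) p g y₀ = y₀ ∧
        ∃ n : ℕ, galKum (M * p) p g y = y + n • y₀) ∧
      (∀ s ∈ I1 A ζ, ∀ x ∈ K₀, s x = x) ∧
      (∀ s ∈ A.inertiaSubgroupIn ℚ, ∀ x ∈ K₀, s x ∈ K₀) ∧
    ∃ (F E : Type) (_ : Field F) (_ : Algebra (A0 K₀ A) F) (_ : Field E) (_ : CharZero E)
      (_ : Algebra (A0 K₀ A) E) (_ : Algebra E F) (_ : IsScalarTower (A0 K₀ A) E F)
      (_ : FiniteDimensional E F)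
      (Φ : F →+* LaurentSeries K₀) (w' : F →+* F) (X : E) (u : Dm (M * p) p) (W : F)
      (t₀ : LaurentSeries K₀),
      PL.Ctx M p (r0 K₀ A) (ζ₀ - 1) Φ w' X ζ₀ ∧
      (∀ (f : F) (f' : FF (M * p)), (f' : LL) = bc K₀ (Φ f) →
        ((w f' : FF (M * p)) : LL) = bc K₀ (Φ (w' f))) ∧
      Kum.mk u = y₀ ∧ bc K₀ (Φ W) = (((u : (FF (M * p))ˣ) : FF (M * p)) : LL) ∧
      (∀ h : FF (M * p), (h : LL) ^ p ≠ bc K₀ (Φ W)) ∧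
      (Φ W).leadingCoeff = 1 ∧ t₀ ^ p = Φ W ∧ t₀.leadingCoeff = 1 ∧
      ∃ Y₁ η ξ' ξ g₁ g₂ g₁' g₂' : F, Y₁ ≠ 0 ∧
        Y₁ ^ p * W = 1 + algebraMap (A0 K₀ A) F (ζ₀ - 1) ^ p * ξ' ∧
        IntX (A0 K₀ A) X⁻¹ ξ' ∧ (∀ n : ℤ, n ≤ 0 → (Φ ξ').coeff n = 0) ∧
        IsOLx (ζ₀ - 1) X η ∧
        (1 + algebraMap (A0 K₀ A) F (ζ₀ - 1) * η) ^ p
            * (1 + algebraMap (A0 K₀ A) F (ζ₀ - 1) ^ p * ξ')
          = 1 + algebraMap (A0 K₀ A) F (ζ₀ - 1) ^ p * ξ ∧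
        IntX (A0 K₀ A) X ξ ∧
        IntX (A0 K₀ A) X g₁ ∧ IntX (A0 K₀ A) X g₂ ∧ IntX (A0 K₀ A) X⁻¹ g₁' ∧
        IntX (A0 K₀ A) X⁻¹ g₂' ∧
        RedK (r0 K₀ A) (Φ (g₁ ^ p - g₁ - ξ)) 0 ∧ RedK (r0 K₀ A) (Φ (w' (g₂ ^ p - g₂ - ξ))) 0 ∧
        RedK (r0 K₀ A) (Φ (g₁' ^ p - g₁' - ξ')) 0 ∧
        RedK (r0 K₀ A) (Φ (w' (g₂' ^ p - g₂' - ξ'))) 0 := by
  obtain ⟨K₀, iN, ζK, π, iD, iFin, hζK, hζKp, hπ, hπζ, hG, hI1, hstab⟩ :=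
    Const.exists_package hp hA hζ hpair
  -- `ζ` as an element of `A₀`
  have hmem : ζK ∈ A0 K₀ A := by
    have h1 : ζK = (π : K₀) + 1 := by rw [hπζ]; ring
    rw [h1]
    exact add_mem π.2 (one_mem _)
  have hζ₀ : IsPrimitiveRoot (⟨ζK, hmem⟩ : A0 K₀ A) p :=
    IsPrimitiveRoot.of_map_of_injective (f := (A0 K₀ A).subtype) hζKp Subtype.val_injective
  have hπe : (⟨ζK, hmem⟩ : A0 K₀ A) - 1 = π := Subtype.ext hπζ.symm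
  obtain ⟨ε, hε, hε₀, -⟩ := hpair.eps
  obtain ⟨F, E, iF, iAF, iE, iE0, iAE, iEF, iT, iFD, Φ, w', X, u, W, t₀, C, hww, hu, hW, hlc, ht₀,
    ht₀lc, hcov⟩ := main hp hp5 hpM hA hw K₀ ⟨ζK, hmem⟩ hζ₀ (hπe ▸ hπ) hstab y₀
      (fun g hg => (hG g hg).1) hpair.k1 ⟨ε, hε, hε₀⟩ hpair.nm₀ hpair.tor
  refine ⟨K₀, iN, iD, iFin, ⟨ζK, hmem⟩, hζK, hζ₀, hπe ▸ hπ, hG, hI1, hstab,
    F, E, iF, iAF, iE, iE0, iAE, iEF, iT, iFD, Φ, w', X, u, W, t₀, C, hww, hu, hW, ?_, hlc, ht₀,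
    ht₀lc, hcov⟩
  intro h
  rw [hW]
  exact not_pow hp u (by rw [hu]; exact hpair.ne) h

end Fermat.Agent.S44.Inst
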