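import Fermat.Agent.S44.Inst.Ctx
import Fermat.Agent.S44.Inst.Rep
import Fermat.Agent.S44.PL.Main
import Fermat.Agent.S44.PL.DescB

/-!
# S44 / Inst / Main : `Pair` + the field package  ⟹  the cover structure `(C0)` for the modular instance     (owner: helper13)

`main` : one existential package `(F, E, Φ, w', X, Ctx, u, W, t₀)` + the conclusion of `PL.cover_abstract`.
-/

set_option autoImplicit false
set_option linter.unusedSectionVars false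
set_option linter.style.haveILetI false

open AlgebraicCurve ModularCurve

namespace Fermat.Agent.S44.Inst

open Fermat.Agent.ES Fermat.Agent.SS Fermat.Agent.SS.GM2 Fermat.Agent.S33
open Fermat.Agent.Crux.G
open Fermat.Agent.Crux (A0)
open Fermat.Agent.S44.Cover (LL gact bc)
open Fermat.Agent.S44.PL (r0 lam)
open Fermat.Agent.Crux.GM (castS)

variable {M p : ℕ} [NeZero M] [NeZero p] {A : ValuationSubring Qb}

set_option maxHeartbeats 1000000 in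
theorem main (hp : p.Prime) (hp5 : 5 ≤ p) (hpM : ¬ p ∣ M) (hA : A.LiesOverPrime p)
    {w : FF (M * p) →ₐ[Qb] FF (M * p)} (hw : IsAL M p w)
    (K₀ : IntermediateField ℚ Qb) [NumberField K₀] [IsDiscreteValuationRing (A0 K₀ A)]
    [Finite (IsLocalRing.ResidueField (A0 K₀ A))]
    (ζ₀ : A0 K₀ A) (hζ₀ : IsPrimitiveRoot ζ₀ p) (hirr : Irreducible (ζ₀ - 1))
    (hstab : ∀ s ∈ A.inertiaSubgroupIn ℚ, ∀ x ∈ K₀, s x ∈ K₀)
    (y₀ : Kum (M * p) p)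
    (hfix : ∀ g : GQ, (∀ x ∈ K₀, g x = x) → galKum (M * p) p g y₀ = y₀)
    (hk1 : InK1 A y₀) (heps : ∃ ε : ℤ, (ε = 1 ∨ ε = -1) ∧ wKum hw hp p y₀ = ε • y₀)
    (hnm : nmKum M p p y₀ = 0)
    (htor : ∀ s ∈ A.inertiaSubgroupIn ℚ, ∀ e : ℕ, (∀ z : Qb, z ^ p = 1 → s z = z ^ e) →
      galKum (M * p) p s y₀ = e • y₀) :
    ∃ (F E : Type) (_ : Field F) (_ : Algebra (A0 K₀ A) F) (_ : Field E) (_ : CharZero E)
      (_ : Algebra (A0 K₀ A) E) (_ : Algebra E F) (_ : IsScalarTower (A0 K₀ A) E F)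
      (_ : FiniteDimensional E F)
      (Φ : F →+* LaurentSeries K₀) (w' : F →+* F) (X : E) (u : Dm (M * p) p) (W : F)
      (t₀ : LaurentSeries K₀),
      PL.Ctx M p (r0 K₀ A) (ζ₀ - 1) Φ w' X ζ₀ ∧
      (∀ (f : F) (f' : FF (M * p)), (f' : LL) = bc K₀ (Φ f) →
        ((w f' : FF (M * p)) : LL) = bc K₀ (Φ (w' f))) ∧
      Kum.mk u = y₀ ∧ bc K₀ (Φ W) = (((u : (FF (M * p))ˣ) : FF (M * p)) : LL) ∧
      (Φ W).leadingCoeff = 1 ∧ t₀ ^ p = Φ W ∧ t₀.leadingCoeff = 1 ∧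
      ∃ Y₁ η ξ' ξ g₁ g₂ g₁' g₂' : F, Y₁ ≠ 0 ∧
        Y₁ ^ p * W = 1 + algebraMap (A0 K₀ A) F (ζ₀ - 1) ^ p * ξ' ∧
        IntX (A0 K₀ A) X⁻¹ ξ' ∧ (∀ n : ℤ, n ≤ 0 → (Φ ξ').coeff n = 0) ∧
        IsOLx (ζ₀ - 1) X η ∧
        (1 + algebraMap (A0 K₀ A) F (ζ₀ - 1) * η) ^ p
            * (1 + algebraMap (A0 K₀ A) F (ζ₀ - 1) ^ p * ξ')
          = 1 + algebraMap (A0 K₀ A) F (ζ₀ - 1) ^ p * ξ ∧
        IntX (A0 K₀ A) X ξ ∧
        IntX (A0 K₀ A) X g₁ ∧ IntX (A0 K₀ A) X g₂ ∧ IntX (A0 K₀ A) X⁻¹ g₁' ∧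
        IntX (A0 K₀ A) X⁻¹ g₂' ∧
        RedK (r0 K₀ A) (Φ (g₁ ^ p - g₁ - ξ)) 0 ∧ RedK (r0 K₀ A) (Φ (w' (g₂ ^ p - g₂ - ξ))) 0 ∧
        RedK (r0 K₀ A) (Φ (g₁' ^ p - g₁' - ξ')) 0 ∧
        RedK (r0 K₀ A) (Φ (w' (g₂' ^ p - g₂' - ξ'))) 0 := by
  have hp2 : p ≠ 2 := by omega
  obtain ⟨wK, hwK, hwK'⟩ := exists_wK M p hp w hw K₀
  obtain ⟨u, W₀, t₀, hu, hW₀, hlc, ht₀, ht₀lc⟩ := exists_W0 hp K₀ y₀ hfix
  subst hu
  obtain ⟨ε, hε, hwy⟩ := heps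
  -- the root of unity in `K₀`
  have hζK : IsPrimitiveRoot ((ζ₀ : K₀)) p :=
    hζ₀.map_of_injective (f := (A0 K₀ A).subtype) Subtype.val_injective
  obtain ⟨hI0, hIinf⟩ := h1 hp K₀ u (W₀ : LaurentSeries K₀) hW₀
  obtain ⟨n₁, n₂, ψ₁, ψ₂, hψ₁, hψ₂, h0₁, h0₂, hr₁, hr₂⟩ :=
    PL.h2 K₀ hp hp2 hpM hA hw wK hwK hwK' (ζ₀ : K₀) hζK (ζ₀ - 1) hirr rfl hstab u hk1
      (PL.inK1_of_eps hk1 ε hε hwy) htor W₀ hW₀ hlc
  obtain ⟨hn₁, hn₂⟩ := PL.h3 K₀ hw wK hwK hwK' (ζ₀ : K₀) hζK hp hp2 hpM u hnm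
    (by rw [hwy, map_zsmul, hnm, smul_zero]) W₀ hW₀ hlc
  obtain ⟨_, F, E, iF, iAF, iE, iE0, iAE, iEF, iT, iFD, Φ, w', X, C, hF⟩ :=
    exists_ctx M p hp hpM hp5 (r0 K₀ A) IsLocalRing.residue_surjective
      (Fermat.Agent.Crux.residue_A0_natCast K₀ A hA) ζ₀ hζ₀ hirr wK hwK
  -- dictionary `F ↔ F_{K₀}(M p)`
  have key : ∀ f : F, ∃ h : Φ f ∈ modularFunctionFieldFullC K₀ (M * p),
      Φ (w' f) = ((wK ⟨Φ f, h⟩ : modularFunctionFieldFullC K₀ (M * p)) : LaurentSeries K₀) := by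
    intro f
    have h : Φ f ∈ modularFunctionFieldFullC K₀ (M * p) := (C.S.hΦF _).2 ⟨f, rfl⟩
    obtain ⟨f', h1, h2⟩ := hF ⟨Φ f, h⟩
    have : f' = f := Φ.injective h1
    subst this
    exact ⟨h, h2⟩
  obtain ⟨W, hW, hwW⟩ := hF W₀
  have hmul : ∀ Y : F, ∀ hY : Φ Y ∈ modularFunctionFieldFullC K₀ (M * p),
      Φ (Y ^ p * W) = (((⟨Φ Y, hY⟩ : modularFunctionFieldFullC K₀ (M * p)) ^ p * W₀ :
        modularFunctionFieldFullC K₀ (M * p)) : LaurentSeries K₀) := by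
    intro Y hY
    rw [map_mul, map_pow, hW]
    rfl
  have hwmul : ∀ Y : F, ∀ hY : Φ Y ∈ modularFunctionFieldFullC K₀ (M * p),
      Φ (w' (Y ^ p * W)) = ((wK ((⟨Φ Y, hY⟩ : modularFunctionFieldFullC K₀ (M * p)) ^ p * W₀) :
        modularFunctionFieldFullC K₀ (M * p)) : LaurentSeries K₀) := by
    intro Y hY
    obtain ⟨h, e⟩ := key (Y ^ p * W)
    rw [e]
    congr 2
    exact Subtype.ext (hmul Y hY)
  refine ⟨F, E, iF, iAF, iE, iE0, iAE, iEF, iT, iFD, Φ, w', X, u, W, t₀, C, ?_, rfl,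
    by rw [hW]; exact hW₀, by rw [hW]; exact hlc, by rw [hW]; exact ht₀, ht₀lc, ?_⟩
  · intro f f' hf
    obtain ⟨h, e⟩ := key f
    rw [e]
    exact hwK' ⟨Φ f, h⟩ f' hf
  · refine PL.cover_abstract C (by rw [hW]; exact hlc)
      (C.S.invKx_of_invKq X p W (by rw [C.hX, hW]; exact hI0))
      (C.S.invKx_of_invKq X⁻¹ p W (by rw [map_inv₀, map_inv₀, C.hX, hW]; exact hIinf))
      n₁ n₂ hψ₁ hψ₂ h0₁ h0₂ (by rw [hW]; exact hr₁) (by rw [hwW]; exact hr₂) ?_ ?_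
    · intro Y hY
      obtain ⟨hYm, -⟩ := key Y
      obtain ⟨H₀, hH₀, e⟩ := hn₁ ⟨Φ Y, hYm⟩ (fun h0 => hY (by
        have := congrArg Subtype.val h0
        exact (map_eq_zero Φ).1 this))
      obtain ⟨H, hH, -⟩ := hF H₀
      exact ⟨H, by rw [hH]; exact hH₀, by rw [hmul Y hYm, hwmul Y hYm, hH]; exact e⟩
    · intro Y hY
      obtain ⟨hYm, -⟩ := key Y
      obtain ⟨c, H₀, hH₀, e⟩ := hn₂ ⟨Φ Y, hYm⟩ (fun h0 => hY (by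
        have := congrArg Subtype.val h0
        exact (map_eq_zero Φ).1 this))
      obtain ⟨H, hH, -⟩ := hF H₀
      exact ⟨c, H, by rw [hH]; exact hH₀, by rw [hmul Y hYm, hwmul Y hYm, hH]; exact e⟩

end Fermat.Agent.S44.Inst
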